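import Fermat.Agent.MUL.Orig.F4.Coind.Basic
import Fermat.Agent.MUL.Orig.F4.Shapiro.Module

/-!
# F4 / Coind / Section : equivariant sections modulo a level (helper13, seat COIND)

For `r : D →* G` and a normal subgroup `U` of `G` there is a map `π : G → D` with `π 1 = 1` and
`π (r d * x * u) ∈ d * π x * r⁻¹(U)` for `u ∈ U` (choose representatives of the double cosets
`r(D) \ G / U`).
-/

set_option autoImplicit false

namespace Fermat.Agent.F4

variable {D G : Type} [Group D] [Group G]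

/-- Equivariant section modulo `U`. -/
theorem exists_coindSection (r : D →* G) (U : Subgroup G) [hU : U.Normal] :
    ∃ π : G → D, π 1 = 1 ∧
      ∀ (d : D) (x u : G), u ∈ U → r ((π (r d * x * u))⁻¹ * d * π x) ∈ U := by
  classical
  -- representatives of the double cosets
  let t : G → G := fun x => (DoubleCoset.mk r.range U x).out
  have ht : ∀ x, ∃ d : D, ∃ u ∈ U, x = r d * t x * u := by
    intro x
    obtain ⟨h, k, hh, hk, hout⟩ := DoubleCoset.mk_out_eq_mul r.range U x
    obtain ⟨d, rfl⟩ := hh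
    refine ⟨d⁻¹, k⁻¹, U.inv_mem hk, ?_⟩
    show x = r d⁻¹ * (DoubleCoset.mk r.range U x).out * k⁻¹
    rw [hout, map_inv]
    group
  choose π₀ u₀ hu₀ hπ₀ using ht
  have htt : ∀ (d : D) (x u : G), u ∈ U → t (r d * x * u) = t x := by
    intro d x u hu
    show (DoubleCoset.mk r.range U (r d * x * u)).out = (DoubleCoset.mk r.range U x).out
    congr 1
    exact ((DoubleCoset.eq r.range U x (r d * x * u)).2 ⟨r d, ⟨d, rfl⟩, u, hu, rfl⟩).symm
  have key : ∀ (d : D) (x u : G), u ∈ U → r ((π₀ (r d * x * u))⁻¹ * d * π₀ x) ∈ U := by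
    intro d x u hu
    have h1 := hπ₀ (r d * x * u)
    rw [htt d x u hu] at h1
    have h2 := hπ₀ x
    -- `r d * (r (π₀ x) * t x * u₀ x) * u = r (π₀ y) * t x * u₀ y`
    have h3 : r ((π₀ (r d * x * u))⁻¹ * d * π₀ x)
        = t x * (u₀ (r d * x * u) * u⁻¹ * (u₀ x)⁻¹) * (t x)⁻¹ := by
      rw [map_mul, map_mul, map_inv]
      generalize π₀ (r d * x * u) = a at h1 ⊢
      generalize u₀ (r d * x * u) = b at h1 ⊢
      generalize π₀ x = c at h2 ⊢
      generalize u₀ x = e at h2 ⊢
      generalize t x = τ at h1 h2 ⊢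
      have h5 : r a = r d * x * u * b⁻¹ * τ⁻¹ := by
        rw [h1]; group
      have h6 : r c = x * e⁻¹ * τ⁻¹ := by
        conv_rhs => rw [h2]
        group
      rw [h5, h6]
      group
    rw [h3]
    exact hU.conj_mem _ (U.mul_mem (U.mul_mem (hu₀ _) (U.inv_mem hu)) (U.inv_mem (hu₀ _))) _
  refine ⟨fun x => π₀ x * (π₀ 1)⁻¹, by simp, fun d x u hu => ?_⟩
  have h := key d x u hu
  have e : (π₀ (r d * x * u) * (π₀ 1)⁻¹)⁻¹ * d * (π₀ x * (π₀ 1)⁻¹)
      = π₀ 1 * ((π₀ (r d * x * u))⁻¹ * d * π₀ x) * (π₀ 1)⁻¹ := by group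
  show r ((π₀ (r d * x * u) * (π₀ 1)⁻¹)⁻¹ * d * (π₀ x * (π₀ 1)⁻¹)) ∈ U
  rw [e, map_mul, map_mul, map_inv]
  exact hU.conj_mem _ h _

/-- `π` is a section of `r` modulo `U`, equivariant modulo `U`. -/
def IsCoindSection (r : D →* G) (U : Subgroup G) (π : G → D) : Prop :=
  π 1 = 1 ∧ ∀ (d : D) (x u : G), u ∈ U → r ((π (r d * x * u))⁻¹ * d * π x) ∈ U

theorem exists_isCoindSection (r : D →* G) (U : Subgroup G) [U.Normal] :
    ∃ π : G → D, IsCoindSection r U π :=
  exists_coindSection r U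

namespace IsCoindSection

variable {r : D →* G} {U : Subgroup G} {π : G → D}

lemma one (h : IsCoindSection r U π) : π 1 = 1 := h.1

lemma spec (h : IsCoindSection r U π) (d : D) (x : G) {u : G} (hu : u ∈ U) :
    ∃ v : D, r v ∈ U ∧ π (r d * x * u) = d * π x * v := by
  refine ⟨(d * π x)⁻¹ * π (r d * x * u), ?_, by group⟩
  have := U.inv_mem (h.2 d x u hu)
  rw [← map_inv] at this
  have e : ((π (r d * x * u))⁻¹ * d * π x)⁻¹ = (d * π x)⁻¹ * π (r d * x * u) := by group
  rwa [e] at this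

lemma spec_left (h : IsCoindSection r U π) (d : D) (x : G) :
    ∃ v : D, r v ∈ U ∧ π (r d * x) = d * π x * v := by
  have := h.spec d x U.one_mem
  rwa [mul_one] at this

lemma spec_right (h : IsCoindSection r U π) (x : G) {u : G} (hu : u ∈ U) :
    ∃ v : D, r v ∈ U ∧ π (x * u) = π x * v := by
  have := h.spec 1 x hu
  rwa [map_one, one_mul, one_mul] at this

lemma spec_right_mul (h : IsCoindSection r U π) [U.Normal] (x g : G) {u : G} (hu : u ∈ U) :
    ∃ v : D, r v ∈ U ∧ π (x * u * g) = π (x * g) * v := by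
  have hc : g⁻¹ * u * g ∈ U := by
    have := (inferInstance : U.Normal).conj_mem u hu g⁻¹
    simpa using this
  have := h.spec_right (x * g) hc
  have e : x * g * (g⁻¹ * u * g) = x * u * g := by group
  rwa [e] at this

lemma spec_hom (h : IsCoindSection r U π) (d : D) : ∃ v : D, r v ∈ U ∧ π (r d) = d * v := by
  have := h.spec_left d 1
  rwa [mul_one, h.one, mul_one] at this

end IsCoindSection

end Fermat.Agent.F4
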