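import Fermat.Agent.MUL.Orig.F4.Coind.Section
import Fermat.Agent.MUL.F4.UC.Seq1

/-!
# F4 / Coind / Shapiro1 : Shapiro's lemma in degree 1 on smooth cochains (helper13, seat COIND)

Every smooth total 1-cocycle `(a, b)` of the complex `K` of `D`-modules is the evaluation of a
smooth total 1-cocycle of `coInd K` (exactly, on cochains):
`α g x = π x • a ((π x)⁻¹ * π (x * g))`, `β x = π x • b` for an equivariant section `π`.
-/

set_option autoImplicit false

open CategoryTheory groupCohomology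

namespace Fermat.Agent.F4

variable {k D G : Type} [CommRing k] [Group D] [Group G]

/-! ### The homogeneous form of a 1-cochain -/

section Homog

variable (A : Rep.{0} k D)

/-- The homogeneous form `(d₀, d₁) ↦ d₀ • a (d₀⁻¹ d₁)` of a 1-cochain. -/
def coindHom1 (a : D → A) (d₀ d₁ : D) : A := A.ρ d₀ (a (d₀⁻¹ * d₁))

variable {A}

lemma coindHom1_smul (a : D → A) (d d₀ d₁ : D) :
    coindHom1 A a (d * d₀) (d * d₁) = A.ρ d (coindHom1 A a d₀ d₁) := by
  unfold coindHom1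
  rw [map_mul, Module.End.mul_apply]
  congr 2
  group

lemma coindHom1_one_left (a : D → A) (d : D) : coindHom1 A a 1 d = a d := by
  unfold coindHom1
  rw [map_one, Module.End.one_apply, inv_one, one_mul]

/-- The homogeneous form of a 1-cocycle is additive. -/
lemma coindHom1_add (a : D → A) (ha : ∀ d e : D, a (d * e) = A.ρ d (a e) + a d) (d₀ d₁ d₂ : D) :
    coindHom1 A a d₀ d₁ + coindHom1 A a d₁ d₂ = coindHom1 A a d₀ d₂ := by
  unfold coindHom1
  have h := ha (d₀⁻¹ * d₁) (d₁⁻¹ * d₂)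
  have e : d₀⁻¹ * d₁ * (d₁⁻¹ * d₂) = d₀⁻¹ * d₂ := by group
  rw [e] at h
  rw [h, map_add, ← Module.End.mul_apply, ← map_mul]
  have e' : d₀ * (d₀⁻¹ * d₁) = d₁ := by group
  rw [e', add_comm]

variable {r : D →* G} {U : Subgroup G}

/-- Invariance of the homogeneous form modulo `r⁻¹(U)`. -/
lemma coindHom1_mul_right [hU : U.Normal] (a : D → A)
    (hinv : ∀ d s, r s ∈ U → a (d * s) = a d)
    (hfix : ∀ d s, r s ∈ U → A.ρ s (a d) = a d) (d₀ d₁ : D) {v v' : D} (hv : r v ∈ U)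
    (hv' : r v' ∈ U) : coindHom1 A a (d₀ * v) (d₁ * v') = coindHom1 A a d₀ d₁ := by
  unfold coindHom1
  have e : (d₀ * v)⁻¹ * (d₁ * v') = (d₀⁻¹ * d₁) * ((d₀⁻¹ * d₁)⁻¹ * v⁻¹ * (d₀⁻¹ * d₁) * v') := by
    group
  have hmem : r ((d₀⁻¹ * d₁)⁻¹ * v⁻¹ * (d₀⁻¹ * d₁) * v') ∈ U := by
    rw [map_mul, map_mul, map_mul, map_inv, map_inv]
    refine U.mul_mem ?_ hv'
    have := hU.conj_mem _ (U.inv_mem hv) (r (d₀⁻¹ * d₁))⁻¹
    simpa using this
  rw [e, hinv _ _ hmem, map_mul, Module.End.mul_apply, hfix _ _ hv]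

end Homog

/-! ### Shapiro in degree 1 -/

section Shapiro1

variable (r : D →* G) (𝓤 : Levels G) (K : Cx k D)

/-- A common level for a smooth total 1-cochain of `K`. -/
lemma coind_exists_level_T1 (hK : K.Smooth (𝓤.comap r)) {a : D → K.K0} (ha : IsLC₁ (𝓤.comap r) a)
    (b : K.K1) :
    ∃ U ∈ 𝓤.sets, (∀ d s, r s ∈ U → a (d * s) = a d) ∧
      (∀ d s, r s ∈ U → K.K0.ρ s (a d) = a d) ∧ ∀ s, r s ∈ U → K.K1.ρ s b = b := by
  obtain ⟨V₁, ⟨U₁, hU₁, rfl⟩, h1, h2⟩ := ha.coind_exists_uniform hK.1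
  obtain ⟨V₂, ⟨U₂, hU₂, rfl⟩, h3⟩ := hK.2 b
  obtain ⟨W, hW, hWle⟩ := 𝓤.directed U₁ hU₁ U₂ hU₂
  exact ⟨W, hW, fun d s hs => h1 d s (hWle hs).1, fun d s hs => h2 d s (hWle hs).1,
    fun s hs => h3 s (hWle hs).2⟩

/-- **Shapiro's lemma in degree 1** (surjectivity, exact on cochains). -/
theorem shapiro1_coInd (hK : K.Smooth (𝓤.comap r)) (z : T1 K) (hz : z ∈ ZZ1 (𝓤.comap r) K) :
    ∃ Z : T1 (K.coInd r 𝓤), Z ∈ ZZ1 𝓤 (K.coInd r 𝓤) ∧
      (evCx r 𝓤 K).onT1 (resT1 r (K.coInd r 𝓤) Z) = z := by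
  obtain ⟨a, b⟩ := z
  obtain ⟨hz1, hz2, hz3⟩ := (mem_ZZ1_iff _ K (a, b)).1 hz
  simp only at hz1 hz2 hz3
  obtain ⟨U, hU, hinv, hfix, hb⟩ := coind_exists_level_T1 r 𝓤 K hK hz3 b
  have hUn : U.Normal := 𝓤.normal U hU
  obtain ⟨π, hπ⟩ := exists_isCoindSection r U
  -- the cocycle relation of `a`
  have hcoc : ∀ d e : D, a (d * e) = K.K0.ρ d (a e) + a d := by
    intro d e
    have := congrFun hz1 (d, e)
    simp only [δ1_apply, Pi.zero_apply] at this
    rw [sub_add_eq_add_sub, sub_eq_zero] at this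
    exact this.symm
  have hdb : ∀ d : D, K.d (a d) = K.K1.ρ d b - b := fun d => congrFun hz2 d
  -- the coinduced cochains
  have hα : ∀ g : G, (fun x => coindHom1 K.K0 a (π x) (π (x * g))) ∈ coIndSub r 𝓤 K.K0 := by
    intro g
    refine ⟨fun d x => ?_, U, hU, fun x s hs => ?_⟩
    · obtain ⟨v, hv, e⟩ := hπ.spec_left d x
      obtain ⟨v', hv', e'⟩ := hπ.spec_left d (x * g)
      show coindHom1 K.K0 a (π (r d * x)) (π (r d * x * g)) = _
      rw [mul_assoc, e, e', coindHom1_mul_right a hinv hfix _ _ hv hv', coindHom1_smul]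
    · obtain ⟨v, hv, e⟩ := hπ.spec_right x hs
      obtain ⟨v', hv', e'⟩ := hπ.spec_right_mul x g hs
      show coindHom1 K.K0 a (π (x * s)) (π (x * s * g)) = _
      rw [e, e', coindHom1_mul_right a hinv hfix _ _ hv hv']
  have hβ : (fun x => K.K1.ρ (π x) b) ∈ coIndSub r 𝓤 K.K1 := by
    refine ⟨fun d x => ?_, U, hU, fun x s hs => ?_⟩
    · obtain ⟨v, hv, e⟩ := hπ.spec_left d x
      show K.K1.ρ (π (r d * x)) b = _
      rw [e, map_mul, map_mul, Module.End.mul_apply, Module.End.mul_apply, hb v hv]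
    · obtain ⟨v, hv, e⟩ := hπ.spec_right x hs
      show K.K1.ρ (π (x * s)) b = _
      rw [e, map_mul, Module.End.mul_apply, hb v hv]
  let α : G → ↥(coIndSub r 𝓤 K.K0) := fun g => ⟨_, hα g⟩
  let β : ↥(coIndSub r 𝓤 K.K1) := ⟨_, hβ⟩
  refine ⟨(α, β), (mem_ZZ1_iff 𝓤 _ _).2 ⟨?_, ?_, ?_⟩, ?_⟩
  · -- cocycle
    funext p
    refine Subtype.ext (funext fun x => ?_)
    show coindHom1 K.K0 a (π (x * p.1)) (π (x * p.1 * p.2)) - coindHom1 K.K0 a (π x) (π (x * (p.1 * p.2)))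
      + coindHom1 K.K0 a (π x) (π (x * p.1)) = 0
    rw [← mul_assoc, ← coindHom1_add a hcoc (π x) (π (x * p.1)) (π (x * p.1 * p.2))]
    abel
  · -- compatibility with `d`
    funext g
    refine Subtype.ext (funext fun x => ?_)
    show K.d (coindHom1 K.K0 a (π x) (π (x * g))) = K.K1.ρ (π (x * g)) b - K.K1.ρ (π x) b
    unfold coindHom1
    rw [K.comm, hdb, map_sub, ← Module.End.mul_apply, ← map_mul]
    congr 2
    group
  · -- level-constant
    refine ⟨U, hU, fun g s hs => Subtype.ext (funext fun x => ?_)⟩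
    show coindHom1 K.K0 a (π x) (π (x * (g * s))) = coindHom1 K.K0 a (π x) (π (x * g))
    obtain ⟨v, hv, e⟩ := hπ.spec_right (x * g) hs
    rw [← mul_assoc, e]
    have := coindHom1_mul_right (r := r) (U := U) a hinv hfix (π x) (π (x * g)) (v := 1) (v' := v)
      (by rw [map_one]; exact U.one_mem) hv
    rwa [mul_one] at this
  · -- evaluation
    refine Prod.ext (funext fun d => ?_) ?_
    · show coindHom1 K.K0 a (π 1) (π (1 * r d)) = a d
      obtain ⟨v, hv, e⟩ := hπ.spec_hom d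
      rw [one_mul, hπ.one, coindHom1_one_left, e, hinv d v hv]
    · show K.K1.ρ (π 1) b = b
      rw [hπ.one, map_one, Module.End.one_apply]

end Shapiro1

end Fermat.Agent.F4
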